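import Fermat.Agent.HeckeDuality.Coeff
import Fermat.Agent.Newforms.Basic
import Fermat.Prelude.Def_CuspForm_Newforms

/-!
Newforms below an eigenform, and raising an eigenform to a squarefree multiple of its level.
-/

set_option autoImplicit false

noncomputable section

namespace Fermat.Agent.ConductorLevel

open CongruenceSubgroup ModularFormClass UpperHalfPlane

/-- Every normalised eigenform has the good eigensystem of a newform of some level dividing it. -/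
theorem exists_newform_below {N : ℕ} (hN : N ≠ 0) {f : CuspForm (Gamma0 N) 2}
    (hf : f.IsNormalizedEigenform) :
    ∃ M : ℕ, M ∣ N ∧ ∃ g : CuspForm (Gamma0 M) 2, g.IsNewform ∧
      ∀ ℓ : ℕ, ℓ.Prime → ¬ ℓ ∣ N → qCoeff g ℓ = qCoeff f ℓ := by
  classical
  have hex : ∃ M, M ∣ N ∧ CuspForm.GoodEigensystemOccursAt f M :=
    ⟨N, dvd_rfl, .refl hf⟩
  obtain ⟨hMN, g, hg, hgf⟩ := Nat.find_spec hex
  refine ⟨Nat.find hex, hMN, g, ⟨hg, fun M hM hne hocc => ?_⟩, hgf⟩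
  obtain ⟨h, hh, hhg⟩ := hocc
  refine Nat.find_min hex (lt_of_le_of_ne
    (Nat.le_of_dvd (Nat.pos_of_ne_zero fun h0 => hN (by simpa [h0] using hMN)) hM) hne)
    ⟨hM.trans hMN, h, hh, fun ℓ hℓ hℓN => ?_⟩
  rw [hhg ℓ hℓ fun hd => hℓN (hd.trans hMN), hgf ℓ hℓ hℓN]

theorem exists_root (a c : ℂ) : ∃ β : ℂ, β * (a - β) = c := by
  obtain ⟨r, hr⟩ := IsAlgClosed.exists_pow_nat_eq (a ^ 2 - 4 * c) (n := 2) two_pos
  exact ⟨(a + r) / 2, by linear_combination (-1 / 4 : ℂ) * hr⟩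

/-- Multiply the level by a prime not dividing it. -/
theorem exists_raise_prime {M q : ℕ} [NeZero M] (hq : q.Prime) (hqM : ¬ q ∣ M)
    {g : CuspForm (Gamma0 M) 2} (hg : g.IsNormalizedEigenform) :
    ∃ h : CuspForm (Gamma0 (M * q)) 2, h.IsNormalizedEigenform ∧
      ∀ ℓ : ℕ, ℓ.Prime → ℓ ≠ q → qCoeff h ℓ = qCoeff g ℓ := by
  have : NeZero (M * q) := ⟨mul_ne_zero (NeZero.ne M) hq.ne_zero⟩
  obtain ⟨β, hβ⟩ := exists_root (qCoeff g q) q
  set h : CuspForm (Gamma0 (M * q)) 2 :=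
    Newforms.levelIncl (dvd_mul_right M q) g -
      β • Newforms.levelRaise q (dvd_of_eq (mul_comm q M)) g with hh
  have hc : ∀ n, qCoeff h n = qCoeff g n - β * (if q ∣ n then qCoeff g (n / q) else 0) := by
    intro n
    rw [hh, HeckeDuality.coeff_sub, HeckeDuality.coeff_smul, Newforms.qCoeff_levelIncl,
      Newforms.qCoeff_levelRaise]
  have hnd : ∀ n, ¬ q ∣ n → qCoeff h n = qCoeff g n := fun n hn => by
    rw [hc, if_neg hn, mul_zero, sub_zero]
  have hd : ∀ n, qCoeff h (n * q) = qCoeff g (n * q) - β * qCoeff g n := fun n => by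
    rw [hc, if_pos (dvd_mul_left q n), Nat.mul_div_cancel _ hq.pos]
  have hmul : ∀ m n : ℕ, m.Coprime n → q ∣ m → qCoeff h (m * n) = qCoeff h m * qCoeff h n := by
    intro m n hmn hqm
    have hqn : ¬ q ∣ n := fun hh => hq.one_lt.ne' (Nat.eq_one_of_dvd_coprimes hmn hqm hh)
    obtain ⟨m', rfl⟩ := hqm
    rw [hnd n hqn, show q * m' * n = m' * n * q by ring, mul_comm q m', hd, hd,
      show m' * n * q = m' * q * n by ring, hg.qCoeff_mul_of_coprime _ _ (mul_comm q m' ▸ hmn),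
      hg.qCoeff_mul_of_coprime _ _ (hmn.coprime_dvd_left (dvd_mul_left m' q))]
    ring
  refine ⟨h, ⟨?_, fun m n hmn => ?_, fun p r hp hpN => ?_, fun p r hp hpN => ?_⟩, ?_⟩
  · rw [hnd 1 hq.not_dvd_one, hg.qCoeff_one]
  · by_cases hm : q ∣ m
    · exact hmul m n hmn hm
    by_cases hn : q ∣ n
    · rw [mul_comm m n, hmul n m hmn.symm hn, mul_comm]
    · rw [hnd _ fun hh => (hq.dvd_mul.1 hh).elim hm hn, hnd m hm, hnd n hn,
        hg.qCoeff_mul_of_coprime m n hmn]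
  · have hpq : ¬ q ∣ p := fun hh => hpN (dvd_mul_of_dvd_right
      ((Nat.prime_dvd_prime_iff_eq hq hp).1 hh ▸ dvd_rfl) M)
    have hpow : ∀ i, ¬ q ∣ p ^ i := fun i hh => hpq (hq.dvd_of_dvd_pow hh)
    rw [hnd _ (hpow _), hnd _ hpq, hnd _ (hpow _), hnd _ (hpow _),
      hg.qCoeff_prime_pow_of_not_dvd p r hp fun hh => hpN (dvd_mul_of_dvd_left hh q)]
  · by_cases hpq : p = q
    · subst hpq
      have h1 : qCoeff h p = qCoeff g p - β := by
        have := hd 1
        rwa [one_mul, hg.qCoeff_one, mul_one] at this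
      rw [h1, show p ^ (r + 2) = p ^ (r + 1) * p by ring, hd, show p ^ (r + 1) = p ^ r * p by ring,
        hd, show p ^ r * p * p = p ^ (r + 2) by ring,
        hg.qCoeff_prime_pow_of_not_dvd p r hp hqM, show p ^ r * p = p ^ (r + 1) by ring]
      linear_combination qCoeff (⇑g) (p ^ r) * hβ
    · have hqp : ¬ q ∣ p := fun hh => hpq ((Nat.prime_dvd_prime_iff_eq hq hp).1 hh).symm
      have hpow : ∀ i, ¬ q ∣ p ^ i := fun i hh => hqp (hq.dvd_of_dvd_pow hh)
      rw [hnd _ (hpow _), hnd _ hqp, hnd _ (hpow _), hg.qCoeff_prime_pow_of_dvd p r hp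
        ((hp.dvd_mul.1 hpN).resolve_right fun hh => hpq ((Nat.prime_dvd_prime_iff_eq hp hq).1 hh))]
  · intro ℓ hℓ hne
    exact hnd ℓ fun hh => hne ((Nat.prime_dvd_prime_iff_eq hq hℓ).1 hh).symm

/-- Raise an eigenform to a squarefree multiple of its level. -/
theorem exists_raise {L : ℕ} (hL : Squarefree L) {M : ℕ} (hM : M ∣ L)
    {g : CuspForm (Gamma0 M) 2} (hg : g.IsNormalizedEigenform) :
    ∃ h : CuspForm (Gamma0 L) 2, h.IsNormalizedEigenform ∧
      ∀ ℓ : ℕ, ℓ.Prime → ¬ ℓ ∣ L → qCoeff h ℓ = qCoeff g ℓ := by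
  obtain ⟨k, rfl⟩ := hM
  induction k using Nat.strong_induction_on generalizing M with
  | _ k ih =>
    have hk0 : k ≠ 0 := right_ne_zero_of_mul hL.ne_zero
    by_cases hk : k = 1
    · subst hk
      rw [mul_one]
      exact ⟨g, hg, fun _ _ _ => rfl⟩
    · obtain ⟨q, hq, hqk⟩ := Nat.exists_prime_and_dvd hk
      obtain ⟨k', rfl⟩ := hqk
      have : NeZero M := ⟨left_ne_zero_of_mul hL.ne_zero⟩
      have hqM : ¬ q ∣ M := fun hh => hq.not_isUnit (hL q (mul_dvd_mul hh (dvd_mul_right q k')))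
      obtain ⟨g', hg', hgg'⟩ := exists_raise_prime hq hqM hg
      have hk' : k' < q * k' :=
        lt_mul_of_one_lt_left (Nat.pos_of_ne_zero (right_ne_zero_of_mul hk0)) hq.one_lt
      rw [← mul_assoc] at hL
      obtain ⟨h, hh, hhg⟩ := ih k' hk' hg' hL
      rw [← mul_assoc]
      refine ⟨h, hh, fun ℓ hℓ hℓL => ?_⟩
      rw [hhg ℓ hℓ hℓL, hgg' ℓ hℓ]
      rintro rfl
      exact hℓL (dvd_mul_of_dvd_left (dvd_mul_left ℓ M) k')

end Fermat.Agent.ConductorLevel
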