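import Mathlib

/-!
An involution of an algebraically closed field of characteristic zero moves every root of unity
of odd order (elementary Artin–Schreier).
-/

set_option autoImplicit false

namespace Fermat.Agent.ConductorLevel

variable {F : Type*} [Field F] [IsAlgClosed F] [CharZero F] {c : F →+* F}

lemma involution_sqrt_neg_one (hc : ∀ x, c (c x) = x) (hne : ∃ a, c a ≠ a) {i : F}
    (hi : i ^ 2 = -1) : c i = -i := by
  have hci : c i = i ∨ c i = -i := by
    apply sq_eq_sq_iff_eq_or_eq_neg.1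
    rw [← map_pow, hi, map_neg, map_one]
  refine hci.resolve_left fun hfix => ?_
  obtain ⟨a, ha⟩ := hne
  set a₁ := a - c a
  have ha₁ : c a₁ = -a₁ := by simp only [a₁, map_sub, hc]; ring
  have ha₁0 : a₁ ≠ 0 := sub_ne_zero.2 (Ne.symm ha)
  obtain ⟨b, hb⟩ := IsAlgClosed.exists_pow_nat_eq a₁ (n := 2) two_pos
  have hcb : c b = i * b ∨ c b = -(i * b) := by
    apply sq_eq_sq_iff_eq_or_eq_neg.1
    rw [← map_pow, hb, ha₁, mul_pow, hi, hb]; ring
  have hb0 : b ≠ 0 := by rintro rfl; exact ha₁0 (by rw [← hb]; ring)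
  have h2 := hc b
  have hbb : -b = b := by
    rcases hcb with h | h
    · rw [h, map_mul, hfix, h] at h2
      linear_combination h2 - b * hi
    · rw [h, map_neg, map_mul, hfix, h] at h2
      linear_combination h2 - b * hi
  exact hb0 (neg_eq_self.1 hbb)

/-- A sum of two squares of fixed elements is the square of a fixed element. -/
lemma fixed_sum_two_squares (hc : ∀ x, c (c x) = x) (hne : ∃ a, c a ≠ a) {x y : F}
    (hx : c x = x) (hy : c y = y) : ∃ z, c z = z ∧ z ^ 2 = x ^ 2 + y ^ 2 := by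
  obtain ⟨i, hi⟩ := IsAlgClosed.exists_pow_nat_eq (-1 : F) (n := 2) two_pos
  have hci := involution_sqrt_neg_one hc hne hi
  obtain ⟨w, hw⟩ := IsAlgClosed.exists_pow_nat_eq (x + i * y) (n := 2) two_pos
  refine ⟨w * c w, by rw [map_mul, hc, mul_comm], ?_⟩
  rw [mul_pow, ← map_pow, hw, map_add, map_mul, hci, hx, hy]
  linear_combination -y ^ 2 * hi

lemma fixed_sum_squares (hc : ∀ x, c (c x) = x) (hne : ∃ a, c a ≠ a) (f : ℕ → F)
    (hf : ∀ j, c (f j) = f j) (n : ℕ) :
    ∃ z, c z = z ∧ z ^ 2 = ∑ j ∈ Finset.range n, f j ^ 2 := by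
  induction n with
  | zero => exact ⟨0, map_zero c, by simp⟩
  | succ n ih =>
    obtain ⟨z, hz, hz2⟩ := ih
    obtain ⟨w, hw, hw2⟩ := fixed_sum_two_squares hc hne hz (hf n)
    exact ⟨w, hw, by rw [hw2, hz2, Finset.sum_range_succ]⟩

/-- An involution moves every primitive root of unity of odd order `m > 1`. -/
theorem involution_map_root_ne (hc : ∀ x, c (c x) = x) (hne : ∃ a, c a ≠ a) {ζ : F} {m : ℕ}
    (hm : Odd m) (hm1 : 1 < m) (hζ : IsPrimitiveRoot ζ m) : c ζ ≠ ζ := by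
  intro hfix
  obtain ⟨k, hk⟩ := hm
  obtain ⟨n, rfl⟩ : ∃ n, m = n + 1 := ⟨m - 1, by omega⟩
  set η := ζ ^ (k + 1) with hη
  have hη2 : η ^ 2 = ζ := by
    rw [hη, ← pow_mul, show (k + 1) * 2 = (n + 1) + 1 by omega, pow_succ, hζ.pow_eq_one, one_mul]
  obtain ⟨z, hz, hz2⟩ := fixed_sum_squares hc hne (fun j => η ^ (j + 1))
    (fun j => by rw [hη, ← pow_mul, map_pow, hfix]) n
  have hsum : ∑ j ∈ Finset.range n, (η ^ (j + 1)) ^ 2 = -1 := by
    have h0 := hζ.geom_sum_eq_zero hm1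
    rw [Finset.sum_range_succ', pow_zero] at h0
    rw [← eq_neg_of_add_eq_zero_left h0]
    exact Finset.sum_congr rfl fun j _ => by
      rw [← pow_mul, mul_comm, pow_mul, hη2]
  have h2 : c z = -z := involution_sqrt_neg_one hc hne (hz2.trans hsum)
  rw [hz] at h2
  have hz0 : z = 0 := self_eq_neg.1 h2
  rw [hz0, hsum, zero_pow two_ne_zero] at hz2
  exact one_ne_zero (neg_eq_zero.1 hz2.symm)

end Fermat.Agent.ConductorLevel
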