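import Fermat.Agent.ConductorLevel.Local
import Fermat.Agent.ConductorLevel.Involution
import Fermat.Agent.ConductorLevel.TwoDimensional
import Fermat.Prelude.Def_FLTPrelim_ModularRep
import Fermat.Prelude.Def_GaloisRep_ComplexConjugation

/-!
A representation matching an elliptic curve with irreducible mod-`p` torsion has absolutely
irreducible, odd reduction.
-/

set_option autoImplicit false

noncomputable section

open WeierstrassCurve Polynomial
open scoped WeierstrassCurve.Affine TensorProduct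
open Fermat.Agent.Arith

namespace Fermat.Agent.ConductorLevel

local notation "Q̄" => AlgebraicClosure ℚ

variable {W : WeierstrassCurve ℤ} {O : Type} [CommRing O] [IsDomain O] [IsDiscreteValuationRing O]
  [CharZero O] {p : ℕ} {ρ : GaloisRepAdic O} {S : Finset ℕ}

/-- The residual characteristic polynomial and the relation on `E[p]`, for one element. -/
structure ResidualRelation (ρ : GaloisRepAdic O) (W : WeierstrassCurve ℤ) (p : ℕ)
    (g : Q̄ ≃ₐ[ℚ] Q̄) (T : ℤ) (D : ℕ) : Prop where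
  charpoly_eq : LinearMap.charpoly (ρ.residual.ρ g) =
    X ^ 2 - C ((T : ℤ) : IsLocalRing.ResidueField O) * X + C (D : IsLocalRing.ResidueField O)
  root : ∀ μ : Q̄, μ ^ p = 1 → g μ = μ ^ D
  relation : ∀ P : Pts W, p • P = 0 → g • g • P - T • (g • P) + (D : ℤ) • P = 0

theorem exists_residualRelation (hΔ0 : W.Δ ≠ 0) (hρ : MatchesCurve ρ W S)
    (hS : ∀ ℓ : ℕ, ℓ.Prime → ℓ ∉ S → W.IsGoodPrimeFor ℓ) (hp : p.Prime) (hpS : p ∈ S)
    (hpO : (p : O) ∈ IsLocalRing.maximalIdeal O) (g : Q̄ ≃ₐ[ℚ] Q̄) :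
    ∃ T D, ResidualRelation ρ W p g T D := by
  obtain ⟨N, hN⟩ := exists_pow_maximalIdeal_le (O := O) hp 1
  obtain ⟨T, D, hT, hD, hroot, hrel⟩ := exists_relation hΔ0 hρ hS hp hpS hN g
  rw [pow_one] at hT hD
  have hle : Ideal.span {(p : O)} ≤ IsLocalRing.maximalIdeal O :=
    (Ideal.span_singleton_le_iff_mem _).2 hpO
  refine ⟨T, D, ⟨?_, fun μ hμ => hroot μ (by rwa [pow_one]),
    fun P hP => hrel P (by rwa [pow_one])⟩⟩
  have h1 : IsLocalRing.residue O (ρ.trace g) = IsLocalRing.residue O (T : O) :=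
    Ideal.Quotient.eq.2 (hle hT)
  have h2 : IsLocalRing.residue O (LinearMap.det (ρ.ρ g)) = IsLocalRing.residue O (D : O) :=
    Ideal.Quotient.eq.2 (hle hD)
  show LinearMap.charpoly ((ρ.ρ g).baseChange (IsLocalRing.ResidueField O)) = _
  rw [LinearMap.charpoly_baseChange, charpoly_two ρ.finrank_eq]
  simp only [Polynomial.map_add, Polynomial.map_sub, Polynomial.map_mul, Polynomial.map_pow,
    Polynomial.map_C, Polynomial.map_X, IsLocalRing.ResidueField.algebraMap_eq]
  rw [show LinearMap.trace O ρ.V (ρ.ρ g) = ρ.trace g from rfl, h1, h2, map_intCast, map_natCast]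

lemma charP_residueField (hp : p.Prime) (hpO : (p : O) ∈ IsLocalRing.maximalIdeal O) :
    CharP (IsLocalRing.ResidueField O) p := by
  refine (CharP.charP_iff_prime_eq_zero hp).2 ?_
  rw [← map_natCast (IsLocalRing.residue O), IsLocalRing.residue_eq_zero_iff]
  exact hpO

lemma dvd_neg_roots {m : ℕ} [NeZero m] {D D' : ℕ}
    (h : ∀ μ : Q̄, μ ^ m = 1 → μ ^ D * μ ^ D' = 1) : (m : ℤ) ∣ (D : ℤ) + D' := by
  obtain ⟨ζ, hζ⟩ := HasEnoughRootsOfUnity.exists_primitiveRoot Q̄ m
  have h1 := h ζ hζ.pow_eq_one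
  rw [← pow_add, hζ.pow_eq_one_iff_dvd] at h1
  exact_mod_cast h1

/-- An involution inverts the roots of unity of odd prime order. -/
lemma involution_inverts (hp : p.Prime) (hp2 : p ≠ 2) {c : Q̄ ≃ₐ[ℚ] Q̄} (hc : c * c = 1)
    (hc1 : c ≠ 1) {μ : Q̄} (hμ : μ ^ p = 1) : c μ * μ = 1 := by
  rcases eq_or_ne μ 1 with rfl | hμ1
  · rw [map_one, one_mul]
  have hζ : IsPrimitiveRoot μ p := IsPrimitiveRoot.iff_orderOf.2
    (by have := Fact.mk hp; exact orderOf_eq_prime hμ hμ1)
  have hcc : ∀ x, c (c x) = x := fun x => by rw [← AlgEquiv.mul_apply, hc, AlgEquiv.one_apply]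
  have hne : c μ ≠ μ := involution_map_root_ne (c := (c : Q̄ →+* Q̄)) hcc
    (by
      by_contra h
      push Not at h
      exact hc1 (AlgEquiv.ext h))
    (hp.odd_of_ne_two hp2) hp.one_lt hζ
  have : NeZero p := ⟨hp.ne_zero⟩
  obtain ⟨i, -, hi⟩ := hζ.eq_pow_of_pow_eq_one (ξ := c μ) (by rw [← map_pow, hμ, map_one])
  have h2 : μ ^ (i * i) = μ := by
    rw [pow_mul, hi, ← map_pow, hi]; exact hcc μ
  have h3 : ((p : ℤ)) ∣ ((i * i : ℕ) : ℤ) - (1 : ℕ) := by
    rw [← hζ.zpow_eq_one_iff_dvd, zpow_sub₀ (hζ.ne_zero hp.ne_zero), zpow_natCast, zpow_natCast,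
      h2, pow_one, div_self (hζ.ne_zero hp.ne_zero)]
  have h4 : (p : ℤ) ∣ ((i : ℤ) - 1) * ((i : ℤ) + 1) := by
    have : ((i * i : ℕ) : ℤ) - (1 : ℕ) = ((i : ℤ) - 1) * ((i : ℤ) + 1) := by push_cast; ring
    rwa [this] at h3
  rcases (Nat.prime_iff_prime_int.1 hp).dvd_or_dvd h4 with h | h
  · refine absurd ?_ hne
    rw [← hi]
    have := (hζ.zpow_eq_one_iff_dvd ((i : ℤ) - 1)).2 h
    rwa [zpow_sub₀ (hζ.ne_zero hp.ne_zero), zpow_natCast, zpow_one,
      div_eq_one_iff_eq (hζ.ne_zero hp.ne_zero)] at this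
  · rw [← hi, ← pow_succ, hζ.pow_eq_one_iff_dvd]
    exact_mod_cast h

lemma complexConjugation_ne_one : complexConjugation ≠ 1 := by
  intro h
  obtain ⟨i, hi⟩ := IsAlgClosed.exists_pow_nat_eq (-1 : Q̄) (n := 2) two_pos
  have h1 := complexEmbedding_complexConjugation i
  rw [h, AlgEquiv.one_apply, eq_comm, Complex.conj_eq_iff_im] at h1
  have h2 := congrArg complexEmbedding hi
  rw [map_pow, map_neg, map_one] at h2
  have h3 := congrArg Complex.re h2
  rw [sq, Complex.mul_re, h1] at h3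
  simp at h3
  nlinarith [mul_self_nonneg (complexEmbedding i).re]

theorem residual_isOdd (hΔ0 : W.Δ ≠ 0) (hρ : MatchesCurve ρ W S)
    (hS : ∀ ℓ : ℕ, ℓ.Prime → ℓ ∉ S → W.IsGoodPrimeFor ℓ) (hp : p.Prime) (hp2 : p ≠ 2) (hpS : p ∈ S)
    (hpO : (p : O) ∈ IsLocalRing.maximalIdeal O) : ρ.residual.IsOdd := by
  intro c hc hc1
  have := charP_residueField (O := O) hp hpO
  obtain ⟨T, D, h⟩ := exists_residualRelation hΔ0 hρ hS hp hpS hpO c
  rw [(trace_det_of_charpoly ρ.residual.finrank_eq h.charpoly_eq).2]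
  have : NeZero p := ⟨hp.ne_zero⟩
  have h1 := dvd_neg_roots (m := p) (D := D) (D' := 1) fun μ hμ => by
    rw [pow_one, ← h.root μ hμ]; exact involution_inverts hp hp2 hc hc1 hμ
  have h2 : ((((D : ℤ) + (1 : ℕ)) : ℤ) : IsLocalRing.ResidueField O) = 0 :=
    (CharP.intCast_eq_zero_iff _ p _).2 h1
  push_cast at h2
  exact eq_neg_of_add_eq_zero_left h2

theorem residual_isAbsolutelyIrreducible (hΔ0 : W.Δ ≠ 0) (hρ : MatchesCurve ρ W S)
    (hS : ∀ ℓ : ℕ, ℓ.Prime → ℓ ∉ S → W.IsGoodPrimeFor ℓ) (hp : p.Prime) (hp2 : p ≠ 2) (hpS : p ∈ S)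
    (hpO : (p : O) ∈ IsLocalRing.maximalIdeal O) (hirr : W.ModRepIsIrreducible p) :
    ρ.residual.IsAbsolutelyIrreducible := by
  classical
  have := Fact.mk hp
  have : NeZero p := ⟨hp.ne_zero⟩
  have := charP_residueField (O := O) hp hpO
  have : (W.map (Int.castRingHom ℚ)).IsElliptic :=
    ⟨isUnit_iff_ne_zero.2 (by rw [map_Δ]; simpa using hΔ0)⟩
  let K := AlgebraicClosure (IsLocalRing.ResidueField O)
  have : CharP K p := charP_of_injective_algebraMap
    (algebraMap (IsLocalRing.ResidueField O) K).injective p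
  let ρK := ρ.residual.baseChange K
  intro Wst hst
  by_contra hne
  push Not at hne
  obtain ⟨hbot, htop⟩ := hne
  have hfr : Module.finrank K Wst = 1 := by
    have h1 : Module.finrank K Wst < 2 := ρK.finrank_eq ▸ Submodule.finrank_lt htop
    have h2 : Module.finrank K Wst ≠ 0 := fun h => hbot (Submodule.finrank_eq_zero.1 h)
    omega
  obtain ⟨⟨v, hv⟩, hv0, hspan⟩ := finrank_eq_one_iff'.1 hfr
  have hv0' : v ≠ 0 := fun h => hv0 (Subtype.ext h)
  have hscal : ∀ g, ∃ r : K, ρK.ρ g v = r • v := fun g => by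
    obtain ⟨r, hr⟩ := hspan ⟨ρK.ρ g v, hst g v hv⟩
    exact ⟨r, (congrArg Subtype.val hr).symm⟩
  choose χ hχ using hscal
  have hχ1 : χ 1 = 1 := by
    refine smul_left_injective K hv0' ?_
    show χ 1 • v = (1 : K) • v
    rw [← hχ, map_one, one_smul, Module.End.one_apply]
  have hχmul : ∀ a b, χ (a * b) = χ a * χ b := fun a b => by
    refine smul_left_injective K hv0' ?_
    show χ (a * b) • v = (χ a * χ b) • v
    rw [← hχ, map_mul, Module.End.mul_apply, hχ b, map_smul, hχ a, smul_smul, mul_comm]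
  let χ' : (Q̄ ≃ₐ[ℚ] Q̄) →* K := ⟨⟨χ, hχ1⟩, hχmul⟩
  let δ : (Q̄ ≃ₐ[ℚ] Q̄) →* K := LinearMap.det.comp ρK.ρ
  let H : Subgroup (Q̄ ≃ₐ[ℚ] Q̄) := χ'.ker ⊓ δ.ker
  have hcomm1 : ∀ (f : (Q̄ ≃ₐ[ℚ] Q̄) →* K) (a b : Q̄ ≃ₐ[ℚ] Q̄), f (a * b * a⁻¹ * b⁻¹) = 1 := by
    intro f a b
    calc f (a * b * a⁻¹ * b⁻¹) = (f a * f a⁻¹) * (f b * f b⁻¹) := by simp only [map_mul]; ring
      _ = 1 := by rw [← map_mul, ← map_mul, mul_inv_cancel, mul_inv_cancel, map_one, one_mul]
  have hcharK : ∀ g T D, ResidualRelation ρ W p g T D →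
      LinearMap.charpoly (ρK.ρ g) = X ^ 2 - C ((T : ℤ) : K) * X + C (D : K) := by
    intro g T D h
    show LinearMap.charpoly ((ρ.residual.ρ g).baseChange K) = _
    rw [LinearMap.charpoly_baseChange, h.charpoly_eq]
    simp only [Polynomial.map_add, Polynomial.map_sub, Polynomial.map_mul, Polynomial.map_pow,
      Polynomial.map_C, Polynomial.map_X]
    rw [_root_.map_intCast, _root_.map_natCast]
  let e : (Q̄ ≃ₐ[ℚ] Q̄) →* Module.End (ZMod p) (Submodule.torsionBy ℤ (Pts W) (p : ℤ)) :=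
    Affine.Point.galoisRepModuleEnd (K := Q̄) ℚ (W.map (Int.castRingHom ℚ)) p
  have hmem : ∀ Q : Submodule.torsionBy ℤ (Pts W) (p : ℤ), p • (Q : Pts W) = 0 := fun Q => by
    rw [← natCast_zsmul]; exact (Submodule.mem_torsionBy_iff _ _).1 Q.2
  have hrel : ∀ g T D, ResidualRelation ρ W p g T D →
      e g * e g - (T : ZMod p) • e g + (D : ZMod p) • 1 = 0 := by
    intro g T D h
    refine LinearMap.ext fun Q => Subtype.ext ?_
    rw [Int.cast_smul_eq_zsmul, ← Int.cast_natCast (R := ZMod p), Int.cast_smul_eq_zsmul]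
    exact h.relation Q (hmem Q)
  have hV : Module.finrank (ZMod p) (Submodule.torsionBy ℤ (Pts W) (p : ℤ)) = 2 :=
    EC.Torsion.finrank_torsionBy_baseChange (W.map (Int.castRingHom ℚ)) Q̄
      (Nat.cast_ne_zero.2 hp.ne_zero)
  refine false_of_irreducible_of_unipotent hV e hirr.2 ?_ H
    (fun a b => ⟨hcomm1 χ' a b, hcomm1 δ a b⟩) (fun g hg => ?_)
    (c := complexConjugation) complexConjugation_mul_self (fun g => ?_)
  · intro h2
    have : ((2 : ℕ) : ZMod p) = 0 := by exact_mod_cast h2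
    rw [ZMod.natCast_eq_zero_iff] at this
    exact hp2 ((Nat.prime_dvd_prime_iff_eq hp Nat.prime_two).1 this)
  · obtain ⟨hg1, hg2⟩ := hg
    obtain ⟨T, D, h⟩ := exists_residualRelation hΔ0 hρ hS hp hpS hpO g
    have hc := hcharK g T D h
    obtain ⟨-, hdet⟩ := trace_det_of_charpoly ρK.finrank_eq hc
    have hD1 : (D : K) = 1 := by rw [← hdet]; exact hg2
    have hev : ρK.ρ g v = v := by rw [hχ]; exact (congrArg (· • v) (hg1 : χ g = 1)).trans (one_smul K v)
    have h0 := LinearMap.congr_fun (sq_eq_of_charpoly hc) v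
    simp only [Module.End.mul_apply, hev, LinearMap.sub_apply, LinearMap.smul_apply,
      Module.End.one_apply, ← sub_smul, hD1] at h0
    have hT2 : ((T : ℤ) : K) - 1 = 1 := by
      refine smul_left_injective K hv0' ?_
      show (((T : ℤ) : K) - 1) • v = (1 : K) • v
      rw [← h0, one_smul]
    have hT : (p : ℤ) ∣ T - 2 := by
      rw [← CharP.intCast_eq_zero_iff K p]
      push_cast
      linear_combination hT2
    have hD : (p : ℤ) ∣ (D : ℤ) - 1 := by
      rw [← CharP.intCast_eq_zero_iff K p]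
      push_cast
      linear_combination hD1
    have h1 := hrel g T D h
    have eT : (T : ZMod p) = 2 := by
      have := (ZMod.intCast_zmod_eq_zero_iff_dvd _ p).2 hT
      push_cast at this
      linear_combination this
    have eD : (D : ZMod p) = 1 := by
      have := (ZMod.intCast_zmod_eq_zero_iff_dvd _ p).2 hD
      push_cast at this
      linear_combination this
    rw [eT, eD, one_smul, two_smul] at h1
    rw [← h1]
    noncomm_ring
  · obtain ⟨T, D, h⟩ := exists_residualRelation hΔ0 hρ hS hp hpS hpO g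
    obtain ⟨T', D', h'⟩ := exists_residualRelation hΔ0 hρ hS hp hpS hpO (complexConjugation * g)
    refine ⟨T, T', D, ?_, hrel g T D h, ?_⟩
    · intro hD
      rw [ZMod.natCast_eq_zero_iff] at hD
      obtain ⟨ζ, hζ⟩ := HasEnoughRootsOfUnity.exists_primitiveRoot Q̄ p
      have h1 := h.root ζ hζ.pow_eq_one
      rw [(hζ.pow_eq_one_iff_dvd D).2 hD] at h1
      refine hζ.ne_one hp.one_lt (g.injective ?_)
      rw [h1, map_one]
    · have hsum := dvd_neg_roots (m := p) (D := D') (D' := D) fun μ hμ => by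
        rw [← h'.root μ hμ, AlgEquiv.mul_apply, h.root μ hμ]
        exact involution_inverts hp hp2 complexConjugation_mul_self complexConjugation_ne_one
          (by rw [pow_right_comm, hμ, one_pow])
      have eD : (D' : ZMod p) = -(D : ZMod p) := by
        have := (ZMod.intCast_zmod_eq_zero_iff_dvd _ p).2 hsum
        push_cast at this
        linear_combination this
      have h2 := hrel _ T' D' h'
      rw [eD, neg_smul, ← sub_eq_add_neg] at h2
      exact h2

end Fermat.Agent.ConductorLevel
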