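import Fermat.Agent.ConductorLevel.Eigen
import Fermat.Agent.ConductorLevel.Raise
import Fermat.Agent.ConductorLevel.Padic
import Fermat.Agent.ConductorLevel.Residual
import Fermat.Agent.ConductorLevel.Inputs
import Fermat.Prelude.Def_WeierstrassCurve_ConductorLevel

/-!
Conductor–level matching from the newform inputs.
-/

set_option autoImplicit false

noncomputable section

open WeierstrassCurve Polynomial CongruenceSubgroup ModularFormClass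
open Fermat.Agent.Arith

namespace Fermat.Agent.ConductorLevel

local notation "Q̄" => AlgebraicClosure ℚ

lemma natCast_mem_maximalIdeal_padicInt (lam : ℕ) [Fact lam.Prime] :
    (lam : ℤ_[lam]) ∈ IsLocalRing.maximalIdeal ℤ_[lam] := by
  rw [PadicInt.maximalIdeal_eq_span_p]; exact Ideal.mem_span_singleton_self _

lemma intCast_range_map {R : Type} [CommRing R] {A : Type*} [CommRing A] {S : Subring ℂ}
    (chi : A →+* ℂ) (hS : chi.range ≤ S) (φ : S →+* R) {x : A} {m : ℤ} (hx : chi x = m) :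
    (φ.comp (Subring.inclusion hS)).comp chi.rangeRestrict x = (m : R) := by
  have h : chi.rangeRestrict x = ((m : ℤ) : chi.range) := Subtype.ext (by simpa using hx)
  rw [RingHom.comp_apply, h, map_intCast]

variable {W : WeierstrassCurve ℤ} {M : ℕ} [NeZero M] {g : CuspForm (Gamma0 M) 2}

/-- No prime `q ≠ p` occurs squared in the level. -/
theorem not_sq_dvd_level (h36 : NewformCarayolInput) (hss : W.IsSemistableModel) (hΔ0 : W.Δ ≠ 0)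
    (hg : g.IsNewform) {p : ℕ} [Fact p.Prime] (hp2 : p ≠ 2) (hirr : W.ModRepIsIrreducible p)
    {S : Finset ℕ} (hpS : p ∈ S) (hMS : ∀ q : ℕ, q.Prime → q ∣ M → q ∈ S)
    (hS : ∀ ℓ : ℕ, ℓ.Prime → ℓ ∉ S → W.IsGoodPrimeFor ℓ)
    (hgW : ∀ ℓ : ℕ, ℓ.Prime → ℓ ∉ S → qCoeff g ℓ = (W.apOfModel ℓ : ℂ))
    {q : ℕ} (hq : q.Prime) (hqp : q ≠ p) (hq3 : ¬ q ^ 3 ∣ M) : ¬ q ^ 2 ∣ M := by
  intro hq2
  have hp : p.Prime := Fact.out
  have hfac : M.factorization q = 2 := by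
    have h1 := (hq.pow_dvd_iff_le_factorization (NeZero.ne M)).1 hq2
    have h2 : ¬ 3 ≤ M.factorization q := fun h =>
      hq3 ((hq.pow_dvd_iff_le_factorization (NeZero.ne M)).2 h)
    omega
  have hR : (eigenChar hg.1 (↑S : Set ℕ)).range ≤ (⊥ : Subalgebra ℤ ℂ).toSubring :=
    eigenChar_range_le hg.1 ⊥ fun ℓ hℓ hℓS =>
      Algebra.mem_bot.2 ⟨W.apOfModel ℓ, by simp [hgW ℓ hℓ (by simpa using hℓS)]⟩
  let φ : (⊥ : Subalgebra ℤ ℂ).toSubring →+* ℤ_[p] :=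
    (Int.castRingHom ℤ_[p]).comp
      (Algebra.botEquivOfInjective (R := ℤ) (A := ℂ) Int.cast_injective).toRingEquiv.toRingHom
  have hval : ∀ (ℓ : ℕ) (hℓ : ℓ.Prime) (hℓM : ¬ ℓ ∣ M) (hℓS : ℓ ∉ (↑S : Set ℕ)),
      ((φ.comp (Subring.inclusion hR)).comp (eigenChar hg.1 (↑S : Set ℕ)).rangeRestrict)
        (CuspForm.heckeAlgebra.T hℓ hℓM hℓS) = (W.apOfModel ℓ : ℤ_[p]) :=
    fun ℓ hℓ hℓM hℓS => intCast_range_map _ hR φ
      (by rw [eigenChar_T]; exact hgW ℓ hℓ (by simpa using hℓS))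
  obtain ⟨O, _, _, _, _, _, _, _, _, _, -, ρ, hρ, hnot⟩ := h36 hg p S ℤ_[p]
    (natCast_mem_maximalIdeal_padicInt p) hp2 (eigenChar hg.1 (↑S : Set ℕ))
    (fun ℓ hℓ hℓM hℓS => eigenChar_T hg.1 hℓ hℓM hℓS) (φ.comp (Subring.inclusion hR)) hpS hMS
    (fun O _ _ _ _ _ _ _ _ _ _ ρ hρ => by
      have hρW : MatchesCurve ρ W S := fun ℓ hℓ hℓS A hA σ hσ => by
        have hℓM : ¬ ℓ ∣ M := fun hd => hℓS (hMS ℓ hℓ hd)
        rw [hρ ℓ hℓ (fun h => hℓS (h ▸ hpS)) hℓM (by simpa using hℓS) A hA σ hσ,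
          hval ℓ hℓ hℓM (by simpa using hℓS), map_intCast]
      have hpO : (p : O) ∈ IsLocalRing.maximalIdeal O := by
        rw [← map_natCast (algebraMap ℤ_[p] O)]
        exact map_nonunit _ _ (natCast_mem_maximalIdeal_padicInt p)
      exact ⟨residual_isAbsolutelyIrreducible hΔ0 hρW hS hp hp2 hpS hpO hirr,
        residual_isOdd hΔ0 hρW hS hp hp2 hpS hpO⟩)
  have hρW : MatchesCurve ρ W S := fun ℓ hℓ hℓS A hA σ hσ => by
    have hℓM : ¬ ℓ ∣ M := fun hd => hℓS (hMS ℓ hℓ hd)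
    rw [hρ ℓ hℓ hℓM (by simpa using hℓS) A hA σ hσ, hval ℓ hℓ hℓM (by simpa using hℓS),
      map_intCast]
  have hpO : (p : O) ∈ IsLocalRing.maximalIdeal O := by
    rw [← map_natCast (algebraMap ℤ_[p] O)]
    exact map_nonunit _ _ (natCast_mem_maximalIdeal_padicInt p)
  exact hnot q hq hqp hfac (isUnipotentOnInertiaAt_of_matches hss hΔ0 hρW hS hp hpS hpO hq hqp)

/-- A prime exactly dividing the level is bad for the curve. -/
theorem not_good_of_dvd_level (h35 : NewformRepInput) (hΔ0 : W.Δ ≠ 0) (hg : g.IsNewform)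
    {S : Finset ℕ} (hMS : ∀ q : ℕ, q.Prime → q ∣ M → q ∈ S)
    (hS : ∀ ℓ : ℕ, ℓ.Prime → ℓ ∉ S → W.IsGoodPrimeFor ℓ)
    (hgW : ∀ ℓ : ℕ, ℓ.Prime → ℓ ∉ S → qCoeff g ℓ = (W.apOfModel ℓ : ℂ))
    {lam : ℕ} [Fact lam.Prime] (hlamS : lam ∈ S)
    {q : ℕ} (hq : q.Prime) (hqlam : q ≠ lam) (hqM : q ∣ M) (hq2 : ¬ q ^ 2 ∣ M) :
    ¬ W.IsGoodPrimeFor q := by
  intro hgood
  have hlam : lam.Prime := Fact.out
  have hR : (eigenChar hg.1 (↑S : Set ℕ)).range ≤ (⊥ : Subalgebra ℤ ℂ).toSubring :=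
    eigenChar_range_le hg.1 ⊥ fun ℓ hℓ hℓS =>
      Algebra.mem_bot.2 ⟨W.apOfModel ℓ, by simp [hgW ℓ hℓ (by simpa using hℓS)]⟩
  let φ : (⊥ : Subalgebra ℤ ℂ).toSubring →+* ℤ_[lam] :=
    (Int.castRingHom ℤ_[lam]).comp
      (Algebra.botEquivOfInjective (R := ℤ) (A := ℂ) Int.cast_injective).toRingEquiv.toRingHom
  obtain ⟨O, _, _, _, _, _, _, _, _, _, -, ρ, hρ, hloc⟩ := h35 hg lam S ℤ_[lam]
    (natCast_mem_maximalIdeal_padicInt lam) (eigenChar hg.1 (↑S : Set ℕ))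
    (fun ℓ hℓ hℓM hℓS => eigenChar_T hg.1 hℓ hℓM hℓS) (φ.comp (Subring.inclusion hR)) hlamS hMS
  have hρW : MatchesCurve ρ W S := fun ℓ hℓ hℓS A hA σ hσ => by
    have hℓM : ¬ ℓ ∣ M := fun hd => hℓS (hMS ℓ hℓ hd)
    rw [hρ ℓ hℓ hℓM (by simpa using hℓS) A hA σ hσ,
      intCast_range_map _ hR φ (by rw [eigenChar_T]; exact hgW ℓ hℓ hℓS), map_intCast]
  have hlamO : (lam : O) ∈ IsLocalRing.maximalIdeal O := by
    rw [← map_natCast (algebraMap ℤ_[lam] O)]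
    exact map_nonunit _ _ (natCast_mem_maximalIdeal_padicInt lam)
  obtain ⟨A, hA⟩ := Arith.exists_liesOverPrime hq
  obtain ⟨σ, hσ⟩ := Arith.exists_isFrobeniusAt hA hq
  have ht := trace_frobenius_of_matches hΔ0 hρW hS hlam hlamS hlamO hq hqlam hgood hA hσ
  have := Fact.mk hq
  obtain ⟨hne1, hne2⟩ := apOfModel_ne (W := W) (ℓ := q) hgood
  rcases hloc q hq hqlam hqM hq2 A hA σ hσ with h | h
  · refine hne1 (Int.cast_injective (α := O) ?_)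
    push_cast
    rw [← ht]
    exact (trace_det_of_charpoly ρ.finrank_eq h).1
  · refine hne2 (Int.cast_injective (α := O) ?_)
    push_cast
    rw [← ht]
    refine (trace_det_of_charpoly ρ.finrank_eq (a := -((q : O) + 1)) (d := (q : O)) ?_).1
    rw [h, map_neg]; ring

/-- At a good prime not dividing the level of the newform the coefficient is `a_q`. -/
theorem qCoeff_eq_of_good (h35 : NewformRepInput) (hΔ0 : W.Δ ≠ 0) (hg : g.IsNewform)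
    {S : Finset ℕ} (hMS : ∀ q : ℕ, q.Prime → q ∣ M → q ∈ S)
    (hS : ∀ ℓ : ℕ, ℓ.Prime → ℓ ∉ S → W.IsGoodPrimeFor ℓ)
    (hgW : ∀ ℓ : ℕ, ℓ.Prime → ℓ ∉ S → qCoeff g ℓ = (W.apOfModel ℓ : ℂ))
    {q : ℕ} (hq : q.Prime) (hgood : W.IsGoodPrimeFor q) (hqM : ¬ q ∣ M) :
    qCoeff g q = (W.apOfModel q : ℂ) := by
  classical
  obtain ⟨lam, hlamf, hlamq, φ, hφ⟩ :=
    exists_padic_hom (isIntegral_qCoeff hg.1 hq) (B := q) hq.ne_zero
  have := hlamf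
  have hlam : lam.Prime := Fact.out
  have hne : lam ≠ q := fun h => hlamq (h ▸ dvd_rfl)
  set S₁ := (insert lam S).erase q with hS₁
  have hqS₁ : q ∉ S₁ := Finset.notMem_erase q _
  have hlamS₁ : lam ∈ S₁ := Finset.mem_erase.2 ⟨hne, Finset.mem_insert_self _ _⟩
  have hnot : ∀ ℓ, ℓ ∉ S₁ → ℓ ≠ q → ℓ ∉ S := fun ℓ h hℓq hℓS =>
    h (Finset.mem_erase.2 ⟨hℓq, Finset.mem_insert_of_mem hℓS⟩)
  have hMS₁ : ∀ r : ℕ, r.Prime → r ∣ M → r ∈ S₁ := fun r hr hrM =>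
    Finset.mem_erase.2 ⟨fun h => hqM (h ▸ hrM), Finset.mem_insert_of_mem (hMS r hr hrM)⟩
  have hR : (eigenChar hg.1 (↑S₁ : Set ℕ)).range ≤
      (Algebra.adjoin ℤ ({qCoeff g q} : Set ℂ)).toSubring :=
    eigenChar_range_le hg.1 _ fun ℓ hℓ hℓS => by
      rcases eq_or_ne ℓ q with rfl | hℓq
      · exact Algebra.self_mem_adjoin_singleton ℤ _
      · rw [hgW ℓ hℓ (hnot ℓ (by simpa using hℓS) hℓq), ← eq_intCast (algebraMap ℤ ℂ)]
        exact Subalgebra.algebraMap_mem _ _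
  obtain ⟨O, _, _, _, _, _, _, _, _, _, hinj, ρ, hρ, -⟩ := h35 hg lam S₁ ℤ_[lam]
    (natCast_mem_maximalIdeal_padicInt lam) (eigenChar hg.1 (↑S₁ : Set ℕ))
    (fun ℓ hℓ hℓM hℓS => eigenChar_T hg.1 hℓ hℓM hℓS)
    ((φ : (Algebra.adjoin ℤ ({qCoeff g q} : Set ℂ)).toSubring →+* ℤ_[lam]).comp (Subring.inclusion hR))
    hlamS₁ hMS₁
  have hS' : ∀ ℓ : ℕ, ℓ.Prime → ℓ ∉ insert q S₁ → W.IsGoodPrimeFor ℓ := fun ℓ hℓ h =>
    hS ℓ hℓ (hnot ℓ (fun hh => h (Finset.mem_insert_of_mem hh))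
      (fun hh => h (hh ▸ Finset.mem_insert_self _ _)))
  have hρW : MatchesCurve ρ W (insert q S₁) := fun ℓ hℓ hℓS A hA σ hσ => by
    have hℓ₁ : ℓ ∉ S₁ := fun hh => hℓS (Finset.mem_insert_of_mem hh)
    have hℓq : ℓ ≠ q := fun hh => hℓS (hh ▸ Finset.mem_insert_self _ _)
    have hℓM : ¬ ℓ ∣ M := fun hd => hℓ₁ (hMS₁ ℓ hℓ hd)
    rw [hρ ℓ hℓ hℓM (by simpa using hℓ₁) A hA σ hσ]
    congr 4
    rw [intCast_range_map (eigenChar hg.1 (↑S₁ : Set ℕ)) hR φ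
      (by rw [eigenChar_T]; exact hgW ℓ hℓ (hnot ℓ hℓ₁ hℓq)), map_intCast]
  have hlamO : (lam : O) ∈ IsLocalRing.maximalIdeal O := by
    rw [← map_natCast (algebraMap ℤ_[lam] O)]
    exact map_nonunit _ _ (natCast_mem_maximalIdeal_padicInt lam)
  obtain ⟨A, hA⟩ := Arith.exists_liesOverPrime hq
  obtain ⟨σ, hσ⟩ := Arith.exists_isFrobeniusAt hA hq
  have ht := trace_frobenius_of_matches hΔ0 hρW hS' hlam
    (Finset.mem_insert_of_mem hlamS₁) hlamO hq hne.symm hgood hA hσ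
  have hch := (trace_det_of_charpoly ρ.finrank_eq
    (hρ q hq hqM (by simpa using hqS₁) A hA σ hσ)).1
  refine hφ _ (hinj ?_)
  rw [map_intCast, ← ht]
  refine Eq.trans ?_ hch.symm
  simp only [RingHom.comp_apply]
  congr 1
  refine congrArg φ (Subtype.ext ?_)
  exact (eigenChar_T hg.1 hq hqM (by simpa using hqS₁)).symm

end Fermat.Agent.ConductorLevel

namespace Fermat.Agent.ConductorLevel

/-- **Conductor–level matching**, from the two newform inputs. -/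
theorem isModularModelOfLevel_conductorLevel (h35 : NewformRepInput) (h36 : NewformCarayolInput)
    (W : WeierstrassCurve ℤ) (hss : W.IsSemistableModel) (N : ℕ)
    (p : ℕ) [Fact p.Prime] (hp2 : p ≠ 2) (hirr : W.ModRepIsIrreducible p)
    (hp2N : ¬ p ^ 2 ∣ N)
    (hN : W.IsModularModelOfLevel N) (hbad : ∀ ℓ : ℕ, ℓ.Prime → (ℓ : ℤ) ∣ W.Δ → ℓ ∣ N)
    (hN3 : ∀ q : ℕ, q.Prime → ¬ q ^ 3 ∣ N) :
    W.IsModularModelOfLevel W.conductorLevel := by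
  classical
  have hp : p.Prime := Fact.out
  have hN0 : N ≠ 0 := fun h => hN3 2 Nat.prime_two (h ▸ dvd_zero _)
  have hΔ0 : W.Δ ≠ 0 := by
    intro h
    obtain ⟨ℓ, hℓN, hℓ⟩ := Nat.exists_infinite_primes (N + 1)
    have := Nat.le_of_dvd (Nat.pos_of_ne_zero hN0) (hbad ℓ hℓ (h ▸ dvd_zero _))
    omega
  obtain ⟨f, hf, hfW⟩ := hN
  obtain ⟨M, hMN, g, hg, hgf⟩ := exists_newform_below hN0 hf
  have : NeZero M := ⟨fun h => hN0 (by simpa [h] using hMN)⟩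
  let S₀ : ℕ → Finset ℕ := fun lam => insert lam N.primeFactors
  have hnotN : ∀ lam ℓ : ℕ, ℓ.Prime → ℓ ∉ S₀ lam → ¬ ℓ ∣ N := fun lam ℓ hℓ h hd =>
    h (Finset.mem_insert_of_mem (Nat.mem_primeFactors.2 ⟨hℓ, hd, hN0⟩))
  have hMS : ∀ lam q : ℕ, q.Prime → q ∣ M → q ∈ S₀ lam := fun lam q hq hd =>
    Finset.mem_insert_of_mem (Nat.mem_primeFactors.2 ⟨hq, hd.trans hMN, hN0⟩)
  have hS : ∀ lam ℓ : ℕ, ℓ.Prime → ℓ ∉ S₀ lam → W.IsGoodPrimeFor ℓ := fun lam ℓ hℓ h hd =>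
    hnotN lam ℓ hℓ h (hbad ℓ hℓ hd)
  have hgW : ∀ lam ℓ : ℕ, ℓ.Prime → ℓ ∉ S₀ lam → qCoeff g ℓ = (W.apOfModel ℓ : ℂ) :=
    fun lam ℓ hℓ h => by
      rw [hgf ℓ hℓ (hnotN lam ℓ hℓ h), hfW ℓ hℓ (hS lam ℓ hℓ h) (hnotN lam ℓ hℓ h)]
  have hsq : ∀ q : ℕ, q.Prime → ¬ q ^ 2 ∣ M := by
    intro q hq
    by_cases hqp : q = p
    · exact fun h => hp2N (hqp ▸ h.trans hMN)
    · exact not_sq_dvd_level h36 hss hΔ0 hg hp2 hirr (Finset.mem_insert_self _ _) (hMS p) (hS p)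
        (hgW p) hq hqp fun h => hN3 q hq (h.trans hMN)
  have hbadM : ∀ q : ℕ, q.Prime → q ∣ M → (q : ℤ) ∣ W.Δ := by
    intro q hq hqM
    by_contra hgood
    obtain ⟨lam, hlam, hne⟩ : ∃ lam : ℕ, lam.Prime ∧ q ≠ lam := by
      by_cases h2 : q = 2
      · exact ⟨3, Nat.prime_three, by omega⟩
      · exact ⟨2, Nat.prime_two, h2⟩
    have := Fact.mk hlam
    exact not_good_of_dvd_level h35 hΔ0 hg (hMS lam) (hS lam) (hgW lam)
      (Finset.mem_insert_self _ _) hq hne hqM (hsq q hq) hgood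
  have hML : M ∣ W.conductorLevel := by
    have e1 : ∏ q ∈ M.primeFactors, q = M :=
      Nat.prod_primeFactors_of_squarefree (Nat.squarefree_iff_prime_squarefree.2
        fun q hq h => hsq q hq (by rwa [sq]))
    have e2 : ∏ q ∈ W.conductorLevel.primeFactors, q = W.conductorLevel :=
      Nat.prod_primeFactors_of_squarefree W.squarefree_conductorLevel
    rw [← e1, ← e2]
    refine Finset.prod_dvd_prod_of_subset _ _ _ fun q hq => ?_
    have hq' := Nat.prime_of_mem_primeFactors hq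
    exact Nat.mem_primeFactors.2 ⟨hq', (W.prime_dvd_conductorLevel_iff hΔ0 hq').2
      (hbadM q hq' (Nat.dvd_of_mem_primeFactors hq)), W.conductorLevel_pos.ne'⟩
  obtain ⟨h, hh, hhg⟩ := exists_raise W.squarefree_conductorLevel hML hg.1
  refine ⟨h, hh, fun q hq hgood hqL => ?_⟩
  rw [hhg q hq hqL]
  exact qCoeff_eq_of_good h35 hΔ0 hg (hMS p) (hS p) (hgW p) hq hgood
    fun hd => hqL (hd.trans hML)

end Fermat.Agent.ConductorLevel
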