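import Fermat.Agent.ConductorLevel.Elliptic
import Fermat.Agent.Arith.Density.Frobenius
import Fermat.Agent.EC.Torsion.Galois
import Fermat.Prelude.Def_GaloisRep_LocalConditions

/-!
A `λ`-adic representation whose Frobenius elements have the characteristic polynomials of an
elliptic curve is compared, modulo every power of `λ`, with the torsion of the curve, using only
the density of Frobenius elements and the quadratic relations on torsion.
-/

set_option autoImplicit false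

noncomputable section

open WeierstrassCurve Polynomial
open scoped WeierstrassCurve.Affine
open Fermat.Agent.Arith

namespace Fermat.Agent.ConductorLevel

local notation "Q̄" => AlgebraicClosure ℚ

variable {W : WeierstrassCurve ℤ} {O : Type} [CommRing O] [IsLocalRing O]

/-- The Frobenius characteristic polynomials of `ρ` outside `S` are those of `W`. -/
def MatchesCurve (ρ : GaloisRepAdic O) (W : WeierstrassCurve ℤ) (S : Finset ℕ) : Prop :=
  ∀ ℓ : ℕ, ℓ.Prime → ℓ ∉ S → ∀ A : ValuationSubring Q̄, A.LiesOverPrime ℓ →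
    ∀ σ : Q̄ ≃ₐ[ℚ] Q̄, A.IsFrobeniusAt σ ℓ →
      LinearMap.charpoly (ρ.ρ σ) = X ^ 2 - C ((W.apOfModel ℓ : ℤ) : O) * X + C (ℓ : O)

section TwoDim

variable {R V : Type*} [CommRing R] [Nontrivial R] [AddCommGroup V] [Module R V] [Module.Free R V]
  [Module.Finite R V]

lemma charpoly_two (hV : Module.finrank R V = 2) (f : V →ₗ[R] V) :
    f.charpoly = X ^ 2 - C (LinearMap.trace R V f) * X + C (LinearMap.det f) := by
  classical
  let b := Module.finBasisOfFinrankEq R V hV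
  rw [← LinearMap.charpoly_toMatrix f b, Matrix.charpoly_fin_two,
    LinearMap.trace_eq_matrix_trace R b, LinearMap.det_toMatrix]

lemma trace_det_of_charpoly (hV : Module.finrank R V = 2) {f : V →ₗ[R] V} {a d : R}
    (h : f.charpoly = X ^ 2 - C a * X + C d) :
    LinearMap.trace R V f = a ∧ LinearMap.det f = d := by
  rw [charpoly_two hV] at h
  have h0 := congrArg (fun p : R[X] => p.coeff 0) h
  have h1 := congrArg (fun p : R[X] => p.coeff 1) h
  simp at h0 h1
  exact ⟨h1, h0⟩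

omit [Nontrivial R] in
lemma sq_eq_of_charpoly {f : Module.End R V} {a d : R}
    (h : LinearMap.charpoly f = X ^ 2 - C a * X + C d) : f * f = a • f - d • 1 := by
  have h' := LinearMap.aeval_self_charpoly f
  simp only [h, map_add, map_sub, map_mul, aeval_C, aeval_X, Algebra.algebraMap_eq_smul_one,
    smul_mul_assoc, one_mul, sq] at h'
  linear_combination (norm := abel) h'

end TwoDim

omit [IsLocalRing O] in
lemma mem_span_of_dvd {m : ℕ} {k : ℤ} (h : (m : ℤ) ∣ k) : (k : O) ∈ Ideal.span {(m : O)} := by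
  obtain ⟨c, rfl⟩ := h
  push_cast
  exact Ideal.mem_span_singleton.2 (dvd_mul_right _ _)

/-- Powers of an element satisfying a Frobenius relation are integral combinations. -/
lemma exists_pow_eq {a ℓ : ℤ} (i : ℕ) :
    ∃ x y : ℤ, y ^ 2 + a * x * y + ℓ * x ^ 2 = ℓ ^ i ∧
      ∀ {R : Type} [Ring R] (f : R), f * f = a • f - ℓ • 1 → f ^ i = x • f + y • 1 := by
  induction i with
  | zero => exact ⟨0, 1, by ring, fun f _ => by simp⟩
  | succ i ih =>
    obtain ⟨x, y, hxy, h⟩ := ih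
    refine ⟨y + a * x, -(ℓ * x), by linear_combination ℓ * hxy, fun {R} _ f hf => ?_⟩
    rw [pow_succ, h f hf, add_mul, smul_mul_assoc, smul_mul_assoc, one_mul, hf, smul_sub, smul_smul,
      smul_smul, add_smul, neg_smul, mul_comm x a, mul_comm x ℓ]
    abel

/-- A Galois-fixed finite level contains the given roots of unity. -/
lemma exists_level_roots (m : ℕ) (hm : m ≠ 0) :
    ∃ L : IntermediateField ℚ Q̄, FiniteDimensional ℚ L ∧
      ∀ μ : Q̄, μ ^ m = 1 → μ ∈ L := by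
  have hfin : {μ : Q̄ | μ ^ m = 1}.Finite := by
    refine (Polynomial.nthRoots m (1 : Q̄)).toFinset.finite_toSet.subset fun μ hμ => ?_
    simpa [Polynomial.mem_nthRoots (Nat.pos_of_ne_zero hm)] using hμ
  refine ⟨IntermediateField.adjoin ℚ {μ | μ ^ m = 1}, ?_,
    fun μ hμ => IntermediateField.subset_adjoin ℚ _ hμ⟩
  have : Finite {μ : Q̄ | μ ^ m = 1} := hfin.to_subtype
  exact IntermediateField.finiteDimensional_adjoin
    fun x _ => (Algebra.IsAlgebraic.isAlgebraic x).isIntegral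

/-- **Comparison**: at every level `m`, the representation and the torsion of `W` share an
integral quadratic relation at every element of the Galois group. -/
theorem exists_relation (hΔ0 : W.Δ ≠ 0) {ρ : GaloisRepAdic O} {S : Finset ℕ}
    (hρ : MatchesCurve ρ W S) (hS : ∀ ℓ : ℕ, ℓ.Prime → ℓ ∉ S → W.IsGoodPrimeFor ℓ)
    {lam : ℕ} (hlam : lam.Prime) (hlamS : lam ∈ S) {N : ℕ} {n : ℕ}
    (hN : IsLocalRing.maximalIdeal O ^ N ≤ Ideal.span {((lam ^ n : ℕ) : O)})
    (g : Q̄ ≃ₐ[ℚ] Q̄) :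
    ∃ (T : ℤ) (D : ℕ),
      ρ.trace g - (T : O) ∈ Ideal.span {((lam ^ n : ℕ) : O)} ∧
      LinearMap.det (ρ.ρ g) - (D : O) ∈ Ideal.span {((lam ^ n : ℕ) : O)} ∧
      (∀ μ : Q̄, μ ^ lam ^ n = 1 → g μ = μ ^ D) ∧
      ∀ P : Pts W, lam ^ n • P = 0 → g • g • P - T • (g • P) + (D : ℤ) • P = 0 := by
  classical
  set m := lam ^ n with hm
  have hm0 : m ≠ 0 := pow_ne_zero _ hlam.ne_zero
  set I := Ideal.span {((m : ℕ) : O)} with hI
  set b := Module.finBasisOfFinrankEq O ρ.V ρ.finrank_eq with hb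
  have : (W.map (Int.castRingHom ℚ)).IsElliptic :=
    ⟨isUnit_iff_ne_zero.2 (by rw [map_Δ]; simpa using hΔ0)⟩
  let X' := {μ : Q̄ // μ ^ m = 1}
  let ρ₁ : GQ →* Matrix (Fin 2) (Fin 2) (O ⧸ I) :=
    ((Ideal.Quotient.mk I).mapMatrix.toMonoidHom.comp
      (LinearMap.toMatrixAlgEquiv b).toMonoidHom).comp ρ.ρ
  let ρ₂ : GQ →* Module.End (ZMod m) (Submodule.torsionBy ℤ (Pts W) (m : ℤ)) :=
    WeierstrassCurve.Affine.Point.galoisRepModuleEnd (K := Q̄) ℚ (W.map (Int.castRingHom ℚ)) m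
  let ρ₃ : GQ →* Function.End X' :=
    { toFun := fun σ μ => ⟨σ μ.1, by rw [← map_pow, μ.2, map_one]⟩
      map_one' := rfl
      map_mul' := fun σ τ => rfl }
  obtain ⟨L₁, hL₁, hL₁'⟩ := ρ.isAdicContinuous N
  obtain ⟨L₂, hL₂, hL₂'⟩ :=
    EC.Torsion.galoisFactorsThroughFiniteLevel_galoisRepModuleEnd (W.map (Int.castRingHom ℚ)) hm0
  obtain ⟨L₃, hL₃, hL₃'⟩ := exists_level_roots m hm0
  have hfix : ∀ σ : GQ, (∀ x ∈ L₁ ⊔ L₂ ⊔ L₃, σ x = x) → (ρ₁.prod (ρ₂.prod ρ₃)) σ = 1 := by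
    intro σ hσ
    refine Prod.ext ?_ (Prod.ext (hL₂' σ fun x hx => hσ x (le_sup_left (a := L₁ ⊔ L₂)
      (le_sup_right (a := L₁) hx))) ?_)
    · have hσ₁ := hL₁' σ fun x hx => hσ x (le_sup_left (a := L₁ ⊔ L₂) (le_sup_left (a := L₁) hx))
      have hcoord : ∀ v : ρ.V, v ∈ (IsLocalRing.maximalIdeal O ^ N) • (⊤ : Submodule O ρ.V) →
          ∀ i, b.repr v i ∈ I := by
        intro v hv i
        refine Submodule.smul_induction_on (p := fun v => b.repr v i ∈ I) hv
          (fun r hr w _ => ?_) (fun v w hv hw => ?_)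
        · simp only [map_smul, Finsupp.smul_apply, smul_eq_mul]
          exact I.mul_mem_right _ (hN hr)
        · simpa [map_add] using I.add_mem hv hw
      ext i j
      show Ideal.Quotient.mk I (LinearMap.toMatrix b b (ρ.ρ σ) i j) = (1 : Matrix _ _ (O ⧸ I)) i j
      have h1 := hcoord _ (hσ₁ (b j)) i
      rw [map_sub, Finsupp.sub_apply, b.repr_self, ← Ideal.Quotient.eq] at h1
      rw [LinearMap.toMatrix_apply, h1, Finsupp.single_apply, Matrix.one_apply]
      simp only [eq_comm (a := j)]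
      split <;> simp
    · funext μ
      exact Subtype.ext (hσ μ.1 (le_sup_right (a := L₁ ⊔ L₂) (hL₃' μ.1 μ.2)))
  have := hL₁; have := hL₂; have := hL₃
  obtain ⟨ℓ, hℓ, hℓS, A, hA, σ, hσ, ⟨i, hi⟩, -⟩ :=
    Density.exists_frobenius_pow (ρ₁.prod (ρ₂.prod ρ₃)) (L₁ ⊔ L₂ ⊔ L₃) hfix g S
  rw [← map_pow] at hi
  have hi₁ : ρ₁ g = ρ₁ (σ ^ i) := congrArg Prod.fst hi
  have hi₂ : ρ₂ g = ρ₂ (σ ^ i) := congrArg (fun p => p.2.1) hi
  have hi₃ : ρ₃ g = ρ₃ (σ ^ i) := congrArg (fun p => p.2.2) hi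
  have hℓm : ¬ ℓ ∣ m := fun hd =>
    hℓS ((Nat.prime_dvd_prime_iff_eq hℓ hlam).1 (hℓ.dvd_of_dvd_pow hd) ▸ hlamS)
  have hgood := hS ℓ hℓ hℓS
  set a := W.apOfModel ℓ with ha
  obtain ⟨x, y, hxy, hpow⟩ := exists_pow_eq (a := a) (ℓ := (ℓ : ℤ)) i
  have hch := hρ ℓ hℓ hℓS A hA σ hσ
  obtain ⟨htr, hdet⟩ := trace_det_of_charpoly ρ.finrank_eq hch
  have hρi : ρ.ρ (σ ^ i) = x • ρ.ρ σ + y • 1 := by
    rw [map_pow]
    refine hpow _ ?_
    rw [sq_eq_of_charpoly hch, Int.cast_smul_eq_zsmul, natCast_zsmul, Nat.cast_smul_eq_nsmul]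
  have hμ : ∀ μ : Q̄, μ ^ m = 1 → g μ = μ ^ (ℓ ^ i) := by
    intro μ hμ
    have h1 : g μ = (σ ^ i) μ :=
      congrArg Subtype.val (congrFun hi₃ (⟨μ, hμ⟩ : X'))
    rw [h1]
    clear h1 hxy hpow hρi hi hi₁ hi₂ hi₃
    induction i with
    | zero => simp
    | succ i ih =>
      rw [pow_succ', AlgEquiv.mul_apply, ih, map_pow,
        Arith.frobenius_root hA hℓ hσ hμ hℓm, ← pow_mul, ← pow_succ']
  refine ⟨x * a + 2 * y, ℓ ^ i, ?_, ?_, hμ, fun P hP => ?_⟩
  · rw [← Ideal.Quotient.eq]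
    have h1 := congrArg Matrix.trace hi₁
    simp only [ρ₁, MonoidHom.coe_comp, Function.comp_apply] at h1
    have h2 : ∀ f : Module.End O ρ.V,
        Matrix.trace (((Ideal.Quotient.mk I).mapMatrix) (LinearMap.toMatrixAlgEquiv b f))
          = Ideal.Quotient.mk I (LinearMap.trace O ρ.V f) := fun f => by
      rw [LinearMap.trace_eq_matrix_trace O b, AddMonoidHom.map_trace]
      rfl
    simp only [RingHom.toMonoidHom_eq_coe, MonoidHom.coe_coe] at h1
    rw [GaloisRepAdic.trace, ← h2 (ρ.ρ g)]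
    refine (h1.trans (h2 _)).trans ?_
    rw [hρi, map_add, map_zsmul, map_zsmul, htr, LinearMap.trace_one, ρ.finrank_eq]
    simp only [zsmul_eq_mul]
    push_cast
    rw [ha]
    ring_nf
  · rw [← Ideal.Quotient.eq]
    have h1 := congrArg Matrix.det hi₁
    simp only [ρ₁, MonoidHom.coe_comp, Function.comp_apply] at h1
    have h2 : ∀ f : Module.End O ρ.V,
        Matrix.det (((Ideal.Quotient.mk I).mapMatrix) (LinearMap.toMatrixAlgEquiv b f))
          = Ideal.Quotient.mk I (LinearMap.det f) := fun f => by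
      rw [← RingHom.map_det, ← LinearMap.det_toMatrix b]
      rfl
    simp only [RingHom.toMonoidHom_eq_coe, MonoidHom.coe_coe] at h1
    rw [← h2 (ρ.ρ g)]
    refine (h1.trans (h2 _)).trans ?_
    rw [map_pow, map_pow LinearMap.det, hdet, Nat.cast_pow]
  · let E := AddMonoid.End (Submodule.torsionBy ℤ (Pts W) (m : ℤ))
    let f : E := DistribSMul.toAddMonoidHom _ σ
    let G : E := DistribSMul.toAddMonoidHom _ g
    have hmem : ∀ Q : Submodule.torsionBy ℤ (Pts W) (m : ℤ), m • (Q : Pts W) = 0 := fun Q => by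
      rw [← natCast_zsmul]; exact (Submodule.mem_torsionBy_iff _ _).1 Q.2
    have hf : f * f = a • f - (ℓ : ℤ) • 1 := by
      refine DFunLike.ext _ _ fun Q => Subtype.ext ?_
      have := frobenius_relation hℓ hgood hA hσ hℓm (hmem Q)
      show σ • σ • (Q : Pts W) = a • (σ • (Q : Pts W)) - (ℓ : ℤ) • (Q : Pts W)
      linear_combination (norm := abel) this
    have hG : G = x • f + y • 1 := by
      rw [← hpow f hf]
      refine DFunLike.ext _ _ fun Q => ?_
      show g • Q = (f ^ i) Q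
      have h1 : g • Q = (σ ^ i) • Q := LinearMap.congr_fun hi₂ Q
      rw [h1]
      clear h1 hxy hpow hρi hi hi₁ hi₂ hi₃ hμ
      induction i generalizing Q with
      | zero => rw [pow_zero, one_smul, pow_zero]; rfl
      | succ i ih => rw [pow_succ', mul_smul, ih, pow_succ']; rfl
    have key : G * G - (x * a + 2 * y) • G + ((ℓ : ℤ) ^ i) • 1 = 0 := by
      rw [hG, ← hxy]
      simp only [add_mul, mul_add, smul_mul_assoc, mul_smul_comm, one_mul, mul_one, hf]
      match_scalars <;> ring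
    have h1 := congrArg Subtype.val (DFunLike.congr_fun key
      (⟨P, (Submodule.mem_torsionBy_iff _ _).2 (by rwa [natCast_zsmul])⟩ :
        Submodule.torsionBy ℤ (Pts W) (m : ℤ)))
    rw [Nat.cast_pow]
    exact h1

end Fermat.Agent.ConductorLevel
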