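import Fermat.Agent.EC.FrobTrace.Quadratic
import Fermat.Agent.EC.Reduction.GoodPrime
import Fermat.Agent.EC.Multiplicative.Int
import Fermat.Agent.EC.Torsion.Structure
import Fermat.Prelude.Def_FLTPrelim_Modularity

/-!
The inputs from the elliptic curve: the Frobenius quadratic relation on torsion, unipotence of
inertia, a point of exact order, and the trivial bound on the number of points mod a prime.
-/

set_option autoImplicit false

noncomputable section

open WeierstrassCurve
open scoped WeierstrassCurve.Affine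
open Fermat.Agent.Arith Fermat.Agent.EC

namespace Fermat.Agent.ConductorLevel

local notation "Q̄" => AlgebraicClosure ℚ

variable (W : WeierstrassCurve ℤ)

/-- The `ℚ̄`-points of an integral model. -/
abbrev Pts : Type := ((W.map (Int.castRingHom ℚ))⁄Q̄).Point

lemma natCard_point_le {k : Type*} [Field k] [Fintype k] (V : WeierstrassCurve.Affine k)
    [V.IsElliptic] : Nat.card V.Point ≤ 2 * Fintype.card k + 1 := by
  classical
  rw [FrobTrace.natCard_point]
  have h2 : ∀ x₀ : k, (FrobTrace.fiber V x₀).card ≤ 2 := fun x₀ => by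
    by_cases hf : FrobTrace.fiber V x₀ = ∅
    · simp [hf]
    · obtain ⟨y, hy⟩ := Finset.nonempty_iff_ne_empty.mpr hf
      rw [FrobTrace.fiber_eq V ((FrobTrace.mem_fiber V).mp hy)]
      exact (Finset.card_insert_le _ _).trans (by simp)
  have := Finset.sum_le_card_nsmul Finset.univ _ 2 fun x₀ _ => h2 x₀
  rw [Finset.card_univ, smul_eq_mul] at this
  omega

variable {W}

lemma isElliptic_reductionMod {ℓ : ℕ} [Fact ℓ.Prime] (hgood : W.IsGoodPrimeFor ℓ) :
    (W.reductionMod ℓ).IsElliptic := by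
  refine ⟨isUnit_iff_ne_zero.2 fun h => hgood ?_⟩
  rw [WeierstrassCurve.reductionMod, map_Δ] at h
  exact (ZMod.intCast_zmod_eq_zero_iff_dvd _ _).1 h

lemma apOfModel_ne {ℓ : ℕ} [Fact ℓ.Prime] (hgood : W.IsGoodPrimeFor ℓ) :
    W.apOfModel ℓ ≠ ℓ + 1 ∧ W.apOfModel ℓ ≠ -(ℓ + 1 : ℤ) := by
  have := isElliptic_reductionMod hgood
  have h := natCard_point_le (W.reductionMod ℓ).toAffine
  rw [ZMod.card] at h
  have hpos : 0 < Nat.card (W.reductionMod ℓ).toAffine.Point := by
    have : Nonempty (W.reductionMod ℓ).toAffine.Point := ⟨0⟩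
    exact Nat.card_pos
  simp only [apOfModel, traceOfFrobenius, WeierstrassCurve.card, Nat.card_zmod]
  omega

variable {A : ValuationSubring Q̄} {σ : Q̄ ≃ₐ[ℚ] Q̄}

/-- A Frobenius element at a good prime satisfies its quadratic relation on torsion. -/
theorem frobenius_relation {ℓ : ℕ} (hℓ : ℓ.Prime) (hgood : W.IsGoodPrimeFor ℓ)
    (hA : A.LiesOverPrime ℓ) (hσ : A.IsFrobeniusAt σ ℓ) {n : ℕ} (hn : ¬ ℓ ∣ n)
    {P : Pts W} (hP : n • P = 0) :
    σ • σ • P - W.apOfModel ℓ • (σ • P) + (ℓ : ℤ) • P = 0 := by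
  classical
  have := Fact.mk hℓ
  have := residueField_charP hA hℓ
  let : Algebra (ZMod ℓ) (IsLocalRing.ResidueField A) := ZMod.algebra _ ℓ
  have := isElliptic_reductionMod hgood
  have : Algebra.IsAlgebraic (ZMod ℓ) (IsLocalRing.ResidueField A) := ⟨fun z => by
    obtain ⟨x, hx, rfl⟩ := exists_integral_residue hA hℓ z
    obtain ⟨p, hp, hpx⟩ := id hx
    have hA0 : Polynomial.eval₂ (Int.castRingHom A) (⟨x, mem_of_isIntegral A hx⟩ : A) p = 0 := by
      apply (map_eq_zero_iff A.subtype Subtype.val_injective).1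
      rw [Polynomial.hom_eval₂, show A.subtype.comp (Int.castRingHom A) = algebraMap ℤ Q̄ from
        RingHom.ext_int _ _]
      exact hpx
    refine IsIntegral.isAlgebraic ⟨p.map (Int.castRingHom (ZMod ℓ)), hp.map _, ?_⟩
    rw [Polynomial.eval₂_map, show ((algebraMap (ZMod ℓ) (IsLocalRing.ResidueField A)).comp
        (Int.castRingHom (ZMod ℓ))) = (IsLocalRing.residue A).comp (Int.castRingHom A) from
        RingHom.ext_int _ _, ← Polynomial.hom_eval₂, hA0, _root_.map_zero]⟩
  set κ := IsLocalRing.ResidueField A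
  have eV : ((W.reductionMod ℓ).toAffine)⁄κ = W.map (Int.castRingHom κ) := by
    show (W.map (Int.castRingHom (ZMod ℓ))).map (algebraMap (ZMod ℓ) κ) = _
    rw [WeierstrassCurve.map_map]
    exact congr_arg W.map (RingHom.ext_int _ _)
  have h : Reduction.ReducesTo A ((W.map (Int.castRingHom ℚ))⁄Q̄) ((W.reductionMod ℓ).toAffine⁄κ) :=
    eV.symm ▸ Reduction.reducesTo_int W A
  have hΔ : ((W.reductionMod ℓ).toAffine⁄κ).Δ ≠ 0 := by
    rw [eV]; exact Reduction.residual_Δ_ne_zero hA hℓ hgood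
  have hall : ∀ Q : Pts W, Q ∈ h.E0 := fun Q => by rw [h.E0_eq_top hΔ]; trivial
  let f : Pts W →+ ((W.reductionMod ℓ).toAffine⁄κ).Point :=
    h.red.comp (AddMonoidHom.codRestrict (AddMonoidHom.id _) h.E0 hall)
  have hf : ∀ Q, f Q = Reduction.redFun A ((W.reductionMod ℓ).toAffine⁄κ) Q := fun Q => rfl
  obtain ⟨hs, hres⟩ := Reduction.res_frobenius hσ
  have hφ : ∀ x ∈ A, Reduction.res A (σ x) =
      (FrobTrace.frobHom (k := ZMod ℓ) κ).toRingHom (Reduction.res A x) := fun x hx => by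
    rw [hres x hx]
    show _ = Reduction.res A x ^ Fintype.card (ZMod ℓ)
    rw [ZMod.card]
  have hfrob : ∀ Q : Pts W,
      f (σ • Q) = FrobTrace.frobPoint (W.reductionMod ℓ).toAffine κ (f Q) := by
    intro Q
    rw [hf, hf]
    match he : Reduction.redFun A ((W.reductionMod ℓ).toAffine⁄κ) Q with
    | .zero =>
      rw [← Affine.Point.zero_def, map_zero]
      exact h.redFun_smul_zero hs hφ he
    | .some c d hcd =>
      match Q with
      | .zero => exact absurd he.symm (Affine.Point.some_ne_zero _)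
      | .some x y hn' =>
        exact h.redFun_smul_some hs hφ he
  set X := σ • σ • P - W.apOfModel ℓ • (σ • P) + (ℓ : ℤ) • P with hX
  have ha : W.apOfModel ℓ = FrobTrace.frobTraceInt (W.reductionMod ℓ).toAffine := by
    simp only [apOfModel, traceOfFrobenius, WeierstrassCurve.card, FrobTrace.frobTraceInt,
      Nat.card_zmod, ZMod.card]
  have h0 : f X = 0 := by
    rw [hX, map_add, map_sub, map_zsmul, map_zsmul, hfrob, hfrob, ha]
    have h1 := FrobTrace.frobQuad_eq_zero (W.reductionMod ℓ).toAffine (f P)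
    rwa [FrobTrace.frobQuad, ZMod.card] at h1
  have hnX : n • X = 0 := by
    have hc : ∀ Q : Pts W, n • (σ • Q) = σ • (n • Q) := fun Q =>
      ((DistribSMul.toAddMonoidHom (Pts W) σ).map_nsmul n Q).symm
    rw [hX, nsmul_add, nsmul_sub, smul_comm n (W.apOfModel ℓ), smul_comm n (ℓ : ℤ),
      hc, hc, hP]
    have hz : σ • (0 : Pts W) = 0 := rfl
    simp [hz, zsmul_zero]
  exact h.eq_of_redFun_eq (Reduction.valuation_natCast_eq_one hA hℓ hn) (hall X) (hall 0) hnX
    (smul_zero n) (by rw [← hf, ← hf, h0, map_zero])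

/-- Inertia at a semistable prime acts unipotently on prime-to-`q` torsion. -/
theorem inertia_relation (hss : W.IsSemistableModel) (hΔ0 : W.Δ ≠ 0) {q : ℕ} (hq : q.Prime)
    (hA : A.LiesOverPrime q) (hσ : σ ∈ A.inertiaSubgroupIn ℚ) {n : ℕ} (hn : ¬ q ∣ n)
    {P : Pts W} (hP : n • P = 0) :
    σ • σ • P - (2 : ℤ) • (σ • P) + P = 0 := by
  have h := Multiplicative.smul_sub_smul_sub_of_semistable hA hq hΔ0
    (fun hh => hss q hq hh.2 hh.1) hσ hn hP
  rw [smul_sub] at h
  rw [two_zsmul]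
  linear_combination (norm := abel) h

/-- A point of exact order `n`. -/
theorem exists_point_addOrderOf (hΔ0 : W.Δ ≠ 0) {n : ℕ} (hn : n ≠ 0) :
    ∃ P : Pts W, addOrderOf P = n := by
  classical
  have : (W.map (Int.castRingHom ℚ)).IsElliptic :=
    ⟨isUnit_iff_ne_zero.2 (by rw [map_Δ]; simpa using hΔ0)⟩
  have : NeZero n := ⟨hn⟩
  obtain ⟨e⟩ := Torsion.exists_addEquiv_torsionBy ((W.map (Int.castRingHom ℚ))⁄Q̄) (n := n)
    (Nat.cast_ne_zero.2 hn)
  refine ⟨(e.symm (1, 0) :), ?_⟩
  rw [show ((e.symm (1, 0) :) : Pts W) =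
      (Submodule.torsionBy ℤ (Pts W) (n : ℤ)).subtype.toAddMonoidHom (e.symm (1, 0)) from rfl,
    addOrderOf_injective _ Subtype.val_injective, e.symm.addOrderOf_eq]
  simp [Prod.addOrderOf_mk, ZMod.addOrderOf_one]

end Fermat.Agent.ConductorLevel
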